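/-
S55 / EXIST : SKELETON of "Layer B" : construction of the semi-local symbols `QSymb` by cohomology.
WIP file (contains `sorry`): never import it from a landed file.  Each section `EXIST-K-x` is a task;
file `Fermat/Agent/S55/Exist/Kum/<Name>.lean`, namespace `Fermat.Agent.S55.Exist`, EXACTLY these statements.
-/
import Fermat.Agent.S55.Exist.Kum.Defs
import Fermat.Agent.S55.Coh.Theta
import Fermat.Agent.S55.NIT.Assembly
import Fermat.Agent.S55.NIT.Inst.Defs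

set_option autoImplicit false

namespace Fermat.Agent.S55.Exist.WIP

open IsDedekindDomain NumberField
open Fermat.Agent.S55 Fermat.Agent.S55.Sym Fermat.Agent.S55.Dict Fermat.Agent.S55.Exist
open Fermat.Agent.S55.NIT (Pl)

/-! ## EXIST-K-0 : file `Kum/QZ.lean` (`ℚ/ℤ[p] = ℤ/p`) -/

section K0

variable {p : ℕ}

theorem zmodToQZ_injective (hp : 0 < p) : Function.Injective (zmodToQZ p) := sorry

theorem exists_zmodToQZ_eq (hp : 0 < p) (c : QZ) (hc : p • c = 0) : ∃ t, zmodToQZ p t = c := sorry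

theorem zmodToQZ_fromQZ (hp : 0 < p) (c : QZ) (hc : p • c = 0) : zmodToQZ p (fromQZ p c) = c := sorry

theorem fromQZ_add (hp : 0 < p) (c c' : QZ) (hc : p • c = 0) (hc' : p • c' = 0) :
    fromQZ p (c + c') = fromQZ p c + fromQZ p c' := sorry

theorem fromQZ_zero (hp : 0 < p) : fromQZ p 0 = 0 := sorry

theorem fromQZ_eq_zero_iff (hp : 0 < p) (c : QZ) (hc : p • c = 0) : fromQZ p c = 0 ↔ c = 0 := sorry

theorem fromQZ_sum (hp : 0 < p) {ι : Type*} (s : Finset ι) (c : ι → QZ) (hc : ∀ i ∈ s, p • c i = 0) :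
    fromQZ p (∑ i ∈ s, c i) = ∑ i ∈ s, fromQZ p (c i) := sorry

theorem QZ_mk_one_div_ne_zero (hp : 1 < p) : QZ.mk (1 / (p : ℚ)) ≠ 0 := sorry

theorem QZ_mk_one_div_mem_pPrimary (hp : 0 < p) : QZ.mk (1 / (p : ℚ)) ∈ pPrimary p QZ := sorry

theorem nsmul_QZ_mk_one_div (hp : 0 < p) : p • QZ.mk (1 / (p : ℚ)) = 0 := sorry

end K0

/-! ## EXIST-K-1 : file `Kum/Open.lean` -/

section K1

variable (K : Type) [Field K] [NumberField K] [Algebra K Qb]

theorem isOpen_fixG : lvlAll.IsOpen (fixG K) := sorry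

instance smoothSet_quot_fixG : SmoothSet lvlAll (GQ ⧸ fixG K) := sorry

end K1

/-! ## EXIST-K-2 : file `Kum/Char.lean` (the Kummer character) -/

section K2

variable {p : ℕ} {K : Type} [Field K] [NumberField K] [Algebra K Qb] {ζ : K}

theorem kumChar_spec (hp : p.Prime) (hζ : IsPrimitiveRoot ζ p) (a : Kˣ) {g : GQ} (hg : g ∈ fixG K)
    {α : Qb} (hα : α ^ p = algebraMap K Qb (a : K)) :
    g α = algebraMap K Qb ζ ^ (kumChar p K ζ a g).val * α := sorry

theorem kumChar_eq_of (hp : p.Prime) (hζ : IsPrimitiveRoot ζ p) (a : Kˣ) {g : GQ} (hg : g ∈ fixG K)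
    {α : Qb} (hα : α ^ p = algebraMap K Qb (a : K)) {j : ZMod p}
    (h : g α = algebraMap K Qb ζ ^ j.val * α) : kumChar p K ζ a g = j := sorry

theorem kumChar_eq_zero_iff (hp : p.Prime) (hζ : IsPrimitiveRoot ζ p) (a : Kˣ) {g : GQ}
    (hg : g ∈ fixG K) {α : Qb} (hα : α ^ p = algebraMap K Qb (a : K)) :
    kumChar p K ζ a g = 0 ↔ g α = α := sorry

theorem kumChar_mul_group (hp : p.Prime) (hζ : IsPrimitiveRoot ζ p) (a : Kˣ) {g g' : GQ}
    (hg : g ∈ fixG K) (hg' : g' ∈ fixG K) :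
    kumChar p K ζ a (g * g') = kumChar p K ζ a g + kumChar p K ζ a g' := sorry

theorem kumChar_mul (hp : p.Prime) (hζ : IsPrimitiveRoot ζ p) (a a' : Kˣ) {g : GQ}
    (hg : g ∈ fixG K) :
    kumChar p K ζ (a * a') g = kumChar p K ζ a g + kumChar p K ζ a' g := sorry

theorem kumChar_pow (hp : p.Prime) (hζ : IsPrimitiveRoot ζ p) (c : Kˣ) {g : GQ} (hg : g ∈ fixG K) :
    kumChar p K ζ (c ^ p) g = 0 := sorry

theorem exists_level_kumChar (hp : p.Prime) (hζ : IsPrimitiveRoot ζ p) (a : Kˣ) :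
    ∃ N ∈ lvlAll.carrier, N ≤ fixG K ∧ ∀ n ∈ N, kumChar p K ζ a n = 0 := sorry

theorem exists_kumChar_eq_one (hp : p.Prime) (hζ : IsPrimitiveRoot ζ p) (a : Kˣ)
    (ha : ∀ c : Kˣ, c ^ p ≠ a) : ∃ s₀ ∈ fixG K, kumChar p K ζ a s₀ = 1 := sorry

end K2

/-! ## EXIST-K-3 : file `Kum/Field.lean` (the field `K(a^(1/p))` in DICT's language) -/

section K3

variable {p : ℕ} {K : Type} [Field K] [NumberField K] [Algebra K Qb] {ζ : K}

theorem exists_kummer_field (hp : p.Prime) (hp2 : p ≠ 2) (hζ : IsPrimitiveRoot ζ p) (a : Kˣ)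
    (ha : ∀ c : Kˣ, c ^ p ≠ a) :
    ∃ (L : Type) (_ : Field L) (_ : NumberField L) (_ : Algebra K L) (_ : Algebra L Qb)
      (_ : IsScalarTower K L Qb) (β : Lˣ), NIT.Kum K L p ∧
        (β : L) ^ p = algebraMap K L (a : K) ∧
        ∀ g : GQ, g ∈ fixG L ↔ g ∈ fixG K ∧ kumChar p K ζ a g = 0 := sorry

end K3

/-! ## EXIST-K-4 : file `Kum/Class.lean` (the Kummer class) -/

section K4

variable {p : ℕ} {K : Type} [Field K] [NumberField K] [Algebra K Qb] {ζ : K}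

theorem indCoc_kumChar_mem_Zsm (hp : p.Prime) (hζ : IsPrimitiveRoot ζ p) (a : Kˣ) :
    indCoc (fixG K) (kumChar p K ζ a) ∈ Zsm lvlAll (IndMod (GQ ⧸ fixG K) (Triv (ZMod p))) 1 := sorry

theorem kumClass_eq_mk (hp : p.Prime) (hζ : IsPrimitiveRoot ζ p) (a : Kˣ) :
    kumClass p K ζ a = Hsm.mk lvlAll _ 1 ⟨_, indCoc_kumChar_mem_Zsm hp hζ a⟩ := sorry

theorem kumClass_mul (hp : p.Prime) (hζ : IsPrimitiveRoot ζ p) (a a' : Kˣ) :
    kumClass p K ζ (a * a') = kumClass p K ζ a + kumClass p K ζ a' := sorry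

theorem kumClass_pow (hp : p.Prime) (hζ : IsPrimitiveRoot ζ p) (c : Kˣ) :
    kumClass p K ζ (c ^ p) = 0 := sorry

variable {L : Type} [Field L] [NumberField L] [Algebra K L] [Algebra L Qb] [IsScalarTower K L Qb]

/-- `X_L → X_K` is a cyclic cover whose cocycle is the Kummer cocycle -/
theorem exists_cover_kum (hp : p.Prime) (hζ : IsPrimitiveRoot ζ p) (a : Kˣ)
    (ha : ∀ c : Kˣ, c ^ p ≠ a)
    (hL : ∀ g : GQ, g ∈ fixG L ↔ g ∈ fixG K ∧ kumChar p K ζ a g = 0) :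
    ∃ σ : (GQ ⧸ fixG L) →[GQ] (GQ ⧸ fixG L), CyclicCover (proj K L) σ p ∧
      IsCoverCocycle (proj K L) σ p (indCoc (fixG K) (kumChar p K ζ a)) := sorry

end K4

/-! ## EXIST-K-5 : file `Kum/GSym.lean` (formal properties of `ksym`, `gsym`, `qh`) -/

section K5

variable {p : ℕ} [NeZero p] {K : Type} [Field K] [NumberField K] [Algebra K Qb] {ζ : K}
  [SmoothSet lvlAll (GQ ⧸ fixG K)]

theorem globInv_mul (b b' : Kˣ) : globInv K (b * b') = globInv K b + globInv K b' := sorry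

theorem gsym_mul_left (hp : p.Prime) (hζ : IsPrimitiveRoot ζ p) (a a' b : Kˣ) :
    gsym p K ζ (a * a') b = gsym p K ζ a b + gsym p K ζ a' b := sorry

theorem gsym_mul_right (a b b' : Kˣ) :
    gsym p K ζ a (b * b') = gsym p K ζ a b + gsym p K ζ a b' := sorry

theorem nsmul_gsym (a b : Kˣ) : p • gsym p K ζ a b = 0 := sorry

theorem qh_mul_left (hp : p.Prime) (hζ : IsPrimitiveRoot ζ p) (L : ∀ q : Nat.Primes, LocPkg p q)
    (q : Nat.Primes) (a a' b : Kˣ) :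
    qh p K ζ L q (a * a') b = qh p K ζ L q a b + qh p K ζ L q a' b := sorry

theorem qh_mul_right (L : ∀ q : Nat.Primes, LocPkg p q) (q : Nat.Primes) (a b b' : Kˣ) :
    qh p K ζ L q a (b * b') = qh p K ζ L q a b + qh p K ζ L q a b' := sorry

theorem qh_eq_zero_iff (L : ∀ q : Nat.Primes, LocPkg p q) (q : Nat.Primes) (a b : Kˣ) :
    qh p K ζ L q a b = 0 ↔ (L q).inv (locA Kx q 2 (gsym p K ζ a b)) = 0 := sorry

/-- local description of the global symbol -/
theorem locA_gsym (q : Nat.Primes) (a b : Kˣ) :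
    locA Kx q 2 (gsym p K ζ a b) =
      Hsm.map (IndMod.sum (ResSet (ιv q) (GQ ⧸ fixG K)) (KL q)) 2
        (symb (lvlLoc q) (kumLoc p K ζ q a) (globLoc K q b)) := sorry

end K5

/-! ## EXIST-K-6 : file `Kum/InvDec.lean` (`G_q`-invariants = invariants of the decomposition group) -/

section K6

variable (q : Nat.Primes)

theorem range_ιv : (ιv q).range = Dec (plc q) := sorry

theorem plc_liesOverPrime : (plc q).LiesOverPrime (q : ℕ) := sorry

variable {X Y : Type} [MulAction GQ X] [MulAction GQ Y]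

theorem toLoc_mem_inv0_iff (f : IndMod X Kx) :
    toLoc (ιv q) X Kx f ∈ inv0 (Gv q) (IndMod (ResSet (ιv q) X) (KL q)) ↔
      f ∈ invD (Dec (plc q)) X := sorry

theorem toLoc_bijective : Function.Bijective (toLoc (ιv q) X Kx) := sorry

theorem toLoc_push [Finite Y] (u : Y →[GQ] X) (f : IndMod Y Kx) :
    toLoc (ιv q) X Kx (IndMod.push Kx u f) =
      IndMod.push (KL q) (resMap (ιv q) u) (toLoc (ιv q) Y Kx f) := sorry

end K6

/-! ## EXIST-K-7 : file `Sym/ResCover.lean`, namespace `Fermat.Agent.S55.Sym` (covers and change of group) -/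

section K7

variable {G H : Type} [Group G] [Group H] (f : H →* G)
variable {X' X : Type} [MulAction G X'] [MulAction G X] {u : X' →[G] X} {σ : X' →[G] X'} {m : ℕ}

theorem cyclicCover_resMap (h : CyclicCover u σ m) :
    CyclicCover (resMap f u) (resMap f σ) m := sorry

theorem isCoverCocycle_resMap {c : (Fin 1 → G) → IndMod X (Triv (ZMod m))}
    (hc : IsCoverCocycle u σ m c) :
    IsCoverCocycle (resMap f u) (resMap f σ) m (pcmap f (toLocTriv f X (ZMod m)) 1 c) := sorry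

theorem locHTriv_mk {𝓝H : LevelSys H} {𝓝G : LevelSys G} (hf : (𝓝G.comap f).Le 𝓝H) (M : Type)
    [AddCommGroup M] (n : ℕ) (z : Zsm 𝓝G (IndMod X (Triv M)) n)
    (hz : pcmap f (toLocTriv f X M) n z.1 ∈ Zsm 𝓝H (IndMod (ResSet f X) (Triv M)) n) :
    locHTriv X hf M n (Hsm.mk 𝓝G _ n z) = Hsm.mk 𝓝H _ n ⟨_, hz⟩ := sorry

end K7

/-! ## EXIST-K-8 : file `Kum/Norm.lean` (local norms are orthogonal to `a`) -/

section K8

variable {p : ℕ} [NeZero p] {K : Type} [Field K] [NumberField K] [Algebra K Qb] {ζ : K}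
  [SmoothSet lvlAll (GQ ⧸ fixG K)]

theorem symb_kumLoc_eq_zero_of_norm (hp : p.Prime) (hp2 : p ≠ 2) (hζ : IsPrimitiveRoot ζ p)
    (q : Nat.Primes) (a b : Kˣ)
    (h : ∀ v : Pl K, OverQ K (q : ℕ) v → b ∈ NIT.Inst.nrmD K p a v) :
    symb (lvlLoc q) (kumLoc p K ζ q a) (globLoc K q b) = 0 := sorry

end K8

/-! ## EXIST-K-9 : file `Kum/LocNondeg.lean` (local non-degeneracy; only `LocPkg` and SYM) -/

section K9

variable {p : ℕ} [NeZero p] {q : Nat.Primes}
variable {O' O : Type} [MulAction (Gv q) O'] [MulAction (Gv q) O] [Finite O'] [Finite O]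
  [SmoothSet (lvlLoc q) O'] [SmoothSet (lvlLoc q) O] [MulAction.IsPretransitive (Gv q) O']
  [MulAction.IsPretransitive (Gv q) O] [Nonempty O]

theorem exists_invY_symb_ne_zero (hp : p.Prime) (L : LocPkg p q) {u : O' →[Gv q] O}
    {σ : O' →[Gv q] O'} (h : CyclicCover u σ p)
    {c : (Fin 1 → Gv q) → IndMod O (Triv (ZMod p))} (hc : IsCoverCocycle u σ p c)
    (hz : c ∈ Zsm (lvlLoc q) (IndMod O (Triv (ZMod p))) 1) :
    ∃ y : inv0 (Gv q) (IndMod O (KL q)),
      invY q O L.inv (symb (lvlLoc q) (Hsm.mk (lvlLoc q) _ 1 ⟨c, hz⟩) y) ≠ 0 := sorry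

end K9

/-! ## EXIST-K-10 : file `Kum/Connected.lean` (if `a` is not a local `p`-th power at some `v ∣ q` the
cover `X_L → X_K` is connected over some `G_q`-orbit) -/

section K10

variable {p : ℕ} {K : Type} [Field K] [NumberField K] [Algebra K Qb]
variable {L : Type} [Field L] [NumberField L] [Algebra K L] [Algebra L Qb] [IsScalarTower K L Qb]

theorem exists_orbit_transitive (hp : p.Prime) (hp2 : p ≠ 2) (q : Nat.Primes) (a : Kˣ) (β : Lˣ)
    (hβ : (β : L) ^ p = algebraMap K L (a : K))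
    {σ : (GQ ⧸ fixG L) →[GQ] (GQ ⧸ fixG L)} (h : CyclicCover (proj K L) σ p)
    (v : Pl K) (hv : OverQ K (q : ℕ) v) (hav : a ∉ NIT.locPow K p v) :
    ∃ ω : MulAction.orbitRel.Quotient (Gv q) (ResSet (ιv q) (GQ ⧸ fixG K)),
      MulAction.IsPretransitive (Gv q) (PreOrb (resMap (ιv q) (proj K L)) ω) := sorry

end K10

/-! ## EXIST-K-11 : file `Kum/Nondeg.lean` (semi-local non-degeneracy) -/

section K11

variable {p : ℕ} [NeZero p] {K : Type} [Field K] [NumberField K] [Algebra K Qb] {ζ : K}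
  [SmoothSet lvlAll (GQ ⧸ fixG K)]

theorem qh_nondeg (hp : p.Prime) (hp2 : p ≠ 2) (hζ : IsPrimitiveRoot ζ p)
    (L : ∀ q : Nat.Primes, LocPkg p q) (q : Nat.Primes) (a : Kˣ)
    (h : ∀ b : Kˣ, qh p K ζ L q a b = 0) (v : Pl K) (hv : OverQ K (q : ℕ) v) :
    a ∈ NIT.locPow K p v := sorry

end K11

/-! ## EXIST-K-12 : file `Kum/Instance.lean` (the instance) -/

section K12

variable {p : ℕ} [NeZero p] {K : Type} [Field K] [NumberField K] [Algebra K Qb] {ζ : K}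
  [SmoothSet lvlAll (GQ ⧸ fixG K)]

theorem qh_norm (hp : p.Prime) (hp2 : p ≠ 2) (hζ : IsPrimitiveRoot ζ p)
    (L : ∀ q : Nat.Primes, LocPkg p q) (q : Nat.Primes) (a b : Kˣ)
    (h : ∀ v : Pl K, OverQ K (q : ℕ) v → b ∈ NIT.Inst.nrmD K p a v) : qh p K ζ L q a b = 0 := sorry

theorem qh_recip (hp : p.Prime) (hp2 : p ≠ 2) (hζ : IsPrimitiveRoot ζ p)
    (L : ∀ q : Nat.Primes, LocPkg p q) (hB3 : NeedB3Q p L) (a b : Kˣ) (R : Finset Nat.Primes)
    (h : ∀ q : Nat.Primes, q ∉ R → ∀ v : Pl K, OverQ K (q : ℕ) v → b ∈ NIT.Inst.nrmD K p a v) :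
    ∑ q ∈ R, qh p K ζ L q a b = 0 := sorry

theorem exists_qSymb (hp : p.Prime) (hp2 : p ≠ 2) (hζ : IsPrimitiveRoot ζ p)
    (L : ∀ q : Nat.Primes, LocPkg p q) (hB3 : NeedB3Q p L) (D : NIT.SI.LocData p K)
    (hpow : ∀ v, D.pow v = NIT.locPow K p v) (hnrm : ∀ a v, D.nrm a v = NIT.Inst.nrmD K p a v) :
    Nonempty (QSymb p K D) := sorry

end K12

end Fermat.Agent.S55.Exist.WIP
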