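/-
S55 / EXIST, node EXIST-K-5 (architect helper115, proofs helper222):
formal properties of `ksym`, `gsym`, `qh`.
PARKED COPY of `Exist/Kum/GSym.lean` compiled against the WIP skeleton (K0, K4 not landed yet).
-/
import Fermat.Agent.S55.Exist.WIP.SkeletonKum
import Fermat.Agent.S55.Sym.Basic
import Fermat.Agent.S55.Sym.Change
import Fermat.Agent.S55.Coh.ResApi

set_option autoImplicit false

namespace Fermat.Agent.S55.Exist

open IsDedekindDomain NumberField
open Fermat.Agent.S55 Fermat.Agent.S55.Sym Fermat.Agent.S55.Dict Fermat.Agent.S55.Exist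
open Fermat.Agent.S55.NIT (Pl)

section K5

variable {p : ℕ} [NeZero p] {K : Type} [Field K] [NumberField K] [Algebra K Qb] {ζ : K}
  [SmoothSet lvlAll (GQ ⧸ fixG K)]

theorem globInv_mul (b b' : Kˣ) : globInv K (b * b') = globInv K b + globInv K b' :=
  Subtype.ext (glob_mul K b b')

theorem gsym_mul_left (hp : p.Prime) (hζ : IsPrimitiveRoot ζ p) (a a' b : Kˣ) :
    gsym p K ζ (a * a') b = gsym p K ζ a b + gsym p K ζ a' b := by
  unfold gsym ksym
  rw [WIP.kumClass_mul hp hζ, symb_add_left, map_add]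

theorem gsym_mul_right (a b b' : Kˣ) :
    gsym p K ζ a (b * b') = gsym p K ζ a b + gsym p K ζ a b' := by
  unfold gsym ksym
  rw [globInv_mul, symb_add_right, map_add]

theorem nsmul_gsym (a b : Kˣ) : p • gsym p K ζ a b = 0 := by
  unfold gsym ksym
  rw [← map_nsmul, nsmul_symb, map_zero]

/-- helper of K5: the local invariant of `gsym` is killed by `p` -/
theorem gsym_nsmul_inv_locA (L : ∀ q : Nat.Primes, LocPkg p q) (q : Nat.Primes) (a b : Kˣ) :
    p • (L q).inv (locA Kx q 2 (gsym p K ζ a b)) = 0 := by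
  rw [← map_nsmul, ← map_nsmul, nsmul_gsym, map_zero, map_zero]

theorem qh_mul_left (hp : p.Prime) (hζ : IsPrimitiveRoot ζ p) (L : ∀ q : Nat.Primes, LocPkg p q)
    (q : Nat.Primes) (a a' b : Kˣ) :
    qh p K ζ L q (a * a') b = qh p K ζ L q a b + qh p K ζ L q a' b := by
  unfold qh
  rw [gsym_mul_left hp hζ, map_add, map_add,
    WIP.fromQZ_add hp.pos _ _ (gsym_nsmul_inv_locA L q a b) (gsym_nsmul_inv_locA L q a' b)]

theorem qh_mul_right (L : ∀ q : Nat.Primes, LocPkg p q) (q : Nat.Primes) (a b b' : Kˣ) :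
    qh p K ζ L q a (b * b') = qh p K ζ L q a b + qh p K ζ L q a b' := by
  unfold qh
  rw [gsym_mul_right, map_add, map_add,
    WIP.fromQZ_add (NeZero.pos p) _ _ (gsym_nsmul_inv_locA L q a b) (gsym_nsmul_inv_locA L q a b')]

theorem qh_eq_zero_iff (L : ∀ q : Nat.Primes, LocPkg p q) (q : Nat.Primes) (a b : Kˣ) :
    qh p K ζ L q a b = 0 ↔ (L q).inv (locA Kx q 2 (gsym p K ζ a b)) = 0 :=
  WIP.fromQZ_eq_zero_iff (NeZero.pos p) _ (gsym_nsmul_inv_locA L q a b)

/-- local description of the global symbol -/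
theorem locA_gsym (q : Nat.Primes) (a b : Kˣ) :
    locA Kx q 2 (gsym p K ζ a b) =
      Hsm.map (IndMod.sum (ResSet (ιv q) (GQ ⧸ fixG K)) (KL q)) 2
        (symb (lvlLoc q) (kumLoc p K ζ q a) (globLoc K q b)) := by
  have hf : (lvlAll.comap (ιv q)).Le (lvlLoc q) := LevelSys.Le.refl _
  have h1 : locH (GQ ⧸ fixG K) hf Kx 2 (ksym p K ζ a b) =
      symb (lvlLoc q) (kumLoc p K ζ q a) (globLoc K q b) :=
    locH_symb hf (kumClass p K ζ a) (globInv K b)
  rw [← h1, map_sum_locH hf]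
  exact Hsm.res_map (ιv q) hf (IndMod.sum (GQ ⧸ fixG K) Kx) 2 (ksym p K ζ a b)

end K5

end Fermat.Agent.S55.Exist
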