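/-
S55 / EXIST, node EXIST-K-8 (proofs helper243): local norms are orthogonal to `a`.
Proved against the skeleton (`Exist/WIP/SkeletonKum.lean`, `Dict/WIP/LocNormC.lean`); becomes
`Exist/Kum/Norm.lean` when the nodes K-1, K-3, K-4, K-6, K-7 and DICT-LocNormC are on main.
-/
import Fermat.Agent.S55.Exist.WIP.SkeletonKum
import Fermat.Agent.S55.Dict.WIP.LocNormC
import Fermat.Agent.S55.NIT.Inst.ModelEquiv
import Fermat.Agent.S55.Sym.Nat
import Fermat.Agent.S55.Sym.Basic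
import Fermat.Agent.S55.Sym.CoverCocycle

set_option autoImplicit false

namespace Fermat.Agent.S55.Exist

open IsDedekindDomain NumberField
open Fermat.Agent.S55 Fermat.Agent.S55.Sym Fermat.Agent.S55.Dict Fermat.Agent.S55.Exist
open Fermat.Agent.S55.NIT (Pl)
open Fermat.Agent.S55.Exist.WIP

section K8

variable {p : ℕ} [NeZero p] {K : Type} [Field K] [NumberField K] [Algebra K Qb] {ζ : K}
  [SmoothSet lvlAll (GQ ⧸ fixG K)]

omit [NeZero p] [Algebra K Qb] [SmoothSet lvlAll (GQ ⧸ fixG K)] in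
/-- the local norm groups of the model `K[X]/(X^p - a)` and of the field `K(a^(1/p))` agree -/
theorem norm_aux_nrmD_eq_locNorm {L : Type} [Field L] [NumberField L] [Algebra K L]
    (hK : NIT.Kum K L p) {a : Kˣ} {β : L} (hβ : β ^ p = algebraMap K L (a : K))
    (ha : ∀ c : Kˣ, c ^ p ≠ a) (v : Pl K) : NIT.Inst.nrmD K p a v = NIT.locNorm K L v := by
  rw [NIT.Inst.nrmD_of_not_pow ha, ← NIT.Inst.locNormA_eq_locNorm]
  unfold NIT.Inst.locNormA
  rw [NIT.Inst.nrmA_Ab_eq_nrm hK hβ ha, NIT.Inst.nrmA_eq_nrm]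

theorem symb_kumLoc_eq_zero_of_norm (hp : p.Prime) (hp2 : p ≠ 2) (hζ : IsPrimitiveRoot ζ p)
    (q : Nat.Primes) (a b : Kˣ)
    (h : ∀ v : Pl K, OverQ K (q : ℕ) v → b ∈ NIT.Inst.nrmD K p a v) :
    symb (lvlLoc q) (kumLoc p K ζ q a) (globLoc K q b) = 0 := by
  by_cases ha : ∃ c : Kˣ, c ^ p = a
  · obtain ⟨c, rfl⟩ := ha
    have h0 : kumLoc p K ζ q (c ^ p) = 0 := by
      unfold kumLoc
      rw [kumClass_pow hp hζ c]
      exact map_zero _
    rw [h0, symb_zero_left]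
  · have ha' : ∀ c : Kˣ, c ^ p ≠ a := fun c hc => ha ⟨c, hc⟩
    obtain ⟨L, _, _, _, _, _, β, hKum, hβ, hfix⟩ := exists_kummer_field hp hp2 hζ a ha'
    obtain ⟨σ, hcov, hcoc⟩ := exists_cover_kum hp hζ a ha' hfix
    -- the arithmetic half
    have hloc : ∀ v : Pl K, OverQ K (q : ℕ) v → b ∈ NIT.locNorm K L v := by
      intro v hv
      rw [← norm_aux_nrmD_eq_locNorm hKum hβ ha' v]
      exact h v hv
    obtain ⟨f, hf, hpush⟩ :=
      (exists_push_eq_glob_iff hp hp2 hKum.deg q.2 (plc_liesOverPrime q) b).2 hloc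
    have hfin : Finite (GQ ⧸ fixG L) := inferInstance
    -- the local norm
    let y₁ : inv0 (Gv q) (IndMod (ResSet (ιv q) (GQ ⧸ fixG L)) (KL q)) :=
      ⟨toLoc (ιv q) (GQ ⧸ fixG L) Kx f, (toLoc_mem_inv0_iff q f).2 hf⟩
    have hy : globLoc K q b =
        inv0.map (IndMod.push (KL q) (resMap (ιv q) (proj K L))) y₁ := by
      apply Subtype.ext
      rw [inv0.coe_map]
      change toLoc (ιv q) (GQ ⧸ fixG K) Kx (glob K b) = _
      rw [← hpush, toLoc_push]
    -- the cohomological half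
    have hcov' := cyclicCover_resMap (ιv q) hcov
    have hcoc' := isCoverCocycle_resMap (ιv q) hcoc
    have hz := hcoc'.mem_Zsm (𝓝 := lvlLoc q) hcov'
    have hk : kumLoc p K ζ q a = Hsm.mk (lvlLoc q) _ 1 ⟨_, hz⟩ := by
      unfold kumLoc
      rw [kumClass_eq_mk hp hζ a]
      exact locHTriv_mk (ιv q) _ (ZMod p) 1 _ hz
    rw [hy, hk]
    exact symb_push_eq_zero _ _ (hcoc'.pull_eq_zero hcov' hz) y₁

end K8

end Fermat.Agent.S55.Exist
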