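/-
S55 / EXIST : SKELETON of the abstract part (pure group theory, Mathlib only).
WIP file (contains `sorry`): never import it from a landed file.  Each node `EXIST-ABS-x` is a task;
the owner proves it in its own file `Fermat/Agent/S55/Exist/Abs/<Name>.lean`, namespace
`Fermat.Agent.S55.Exist.Abs`, with EXACTLY this statement.
-/
import Fermat.Agent.S55.Exist.Abs.Defs

set_option autoImplicit false

namespace Fermat.Agent.S55.Exist.Abs.WIP

open Fermat.Agent.S55.Exist.Abs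

variable {p : ℕ} {X ι τ : Type*} [AddCommGroup X]

/-- EXIST-ABS-0 (file HomCard.lean). `|Hom(G, ℤ/p)| ≤ |G|` for a finite abelian group `G`.
Proof: `Hom(G, ℤ/p) = Hom(G/pG, ℤ/p)` = dual of the `𝔽_p`-vector space `G/pG`. -/
theorem card_addHom_zmod_le (hp : p.Prime) (G : Type*) [AddCommGroup G] [Finite G] :
    Finite (G →+ ZMod p) ∧ Nat.card (G →+ ZMod p) ≤ Nat.card G := sorry

/-- EXIST-ABS-1 (file Count.lean). `[V^T : pX] = [E : E ∩ pX] · |Cl_T / p|`, `E = ker d`.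
Proof: `V^T / pX → Cl[p]`, `a ↦ class of (d a)/p`, `Cl = coker d` (finite), is onto with kernel
`(E + pX)/pX`, and `|Cl[p]| = |Cl/p|`. -/
theorem relIndex_selS (hp : p.Prime) (d : X →+ (ι →₀ ℤ)) (hfin : d.range.index ≠ 0)
    (hE : (pMul p X).relIndex d.ker ≠ 0) :
    (pMul p X).relIndex (selS p d) = (pMul p X).relIndex d.ker * (relQ p d).index := sorry

/-- EXIST-ABS-2a (file Isotropic.lean). A totally isotropic subgroup for a left non-degenerate
pairing has at most `√|Y|` elements.  Proof: `x ↦ B x ·` embeds `W` into `Hom(Y/W, ℤ/p)`; ABS-0. -/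
theorem card_sq_le_of_isotropic (hp : p.Prime) {Y : Type*} [AddCommGroup Y] [Finite Y]
    (B : Y →+ Y →+ ZMod p) (hB : ∀ x, (∀ y, B x y = 0) → x = 0) (W : AddSubgroup Y)
    (hW : ∀ x ∈ W, ∀ y ∈ W, B x y = 0) : Nat.card W ^ 2 ≤ Nat.card Y := sorry

/-- EXIST-ABS-2b (file IsotropicIndex.lean). Apply ABS-2a to `Y = ∏_w X / P w`,
`B x y = ∑_w h w x_w y_w`, `W` = image of `V'`. -/
theorem relIndex_iInf_le (hp : p.Prime) [Fintype τ] (P : τ → AddSubgroup X)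
    (h : τ → X →+ X →+ ZMod p) (e : ℕ) (hP : ∏ w, (P w).index = p ^ (2 * e))
    (hl : ∀ w a b, a ∈ P w → h w a b = 0) (hr : ∀ w a b, b ∈ P w → h w a b = 0)
    (hnd : ∀ w a, (∀ b, h w a b = 0) → a ∈ P w)
    (V' : AddSubgroup X) (hiso : ∀ a ∈ V', ∀ b ∈ V', ∑ w, h w a b = 0) :
    (⨅ w, P w).relIndex V' ≠ 0 ∧ (⨅ w, P w).relIndex V' ≤ p ^ e := sorry

/-- EXIST-ABS-3 (file Perfect.lean). Proof: `C` = right kernel; `V ↪ Hom(A/C, ℤ/p)`, ABS-0. -/
theorem eq_zero_of_card_le (hp : p.Prime) {V A : Type*} [AddCommGroup V] [AddCommGroup A]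
    [Finite A] (Φ : V →+ A →+ ZMod p) (hinj : Function.Injective Φ)
    (hcard : Nat.card A ≤ Nat.card V) (c : A) (hc : ∀ a, Φ a c = 0) : c = 0 := sorry

/-- EXIST-ABS-4 (file Main.lean). The abstract existence theorem.  Proof:
`[V^T:pX] = p^e |A|` (ABS-1, `A = (⨁ℤ)/relQ`), `[V^T:V_T] ≤ p^e` (ABS-2b; isotropy follows from `hrec`
because `ev g a (d b) = 0` for `b ∈ V^T`), hence `|A| ≤ [V_T:pX]`; `a ↦ ev g a` induces an injective
map `V_T/pX → Hom(A, ℤ/p)` (`hrec` + `hl`, `hsep`); ABS-3. -/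
theorem abs_main (hp : p.Prime) [Fintype τ] (d : X →+ (ι →₀ ℤ)) (P : τ → AddSubgroup X)
    (h : τ → X →+ X →+ ZMod p) (g : ι → X →+ ZMod p) (e : ℕ)
    (hfin : d.range.index ≠ 0)
    (hE : (pMul p X).relIndex d.ker = p ^ e)
    (hP : ∏ w, (P w).index = p ^ (2 * e))
    (hl : ∀ w a b, a ∈ P w → h w a b = 0) (hr : ∀ w a b, b ∈ P w → h w a b = 0)
    (hnd : ∀ w a, (∀ b, h w a b = 0) → a ∈ P w)
    (hrec : ∀ a ∈ selS p d, ∀ b, ∑ w, h w a b + ev p g a (d b) = 0)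
    (hsep : ∀ a ∈ selT p d P, (∀ i, g i a = 0) → a ∈ pMul p X)
    (D : ι →₀ ℤ) (hD : ∀ a ∈ selT p d P, ev p g a D = 0) : D ∈ relQ p d := sorry

end Fermat.Agent.S55.Exist.Abs.WIP
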