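/-
S55 / EXIST : SKELETON of the arithmetic layer ("Layer A": number field `K ∋ μ_p`, abstract local
symbols `SymbData`).  WIP file (contains `sorry`): never import it from a landed file.
Each node `EXIST-A-x` is a task; the owner proves it in its own file
`Fermat/Agent/S55/Exist/<Name>.lean`, namespace `Fermat.Agent.S55.Exist`, with EXACTLY this statement.
-/
import Fermat.Agent.S55.Exist.Defs
import Fermat.Agent.S55.Exist.Abs.Defs

set_option autoImplicit false

namespace Fermat.Agent.S55.Exist.WIP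

open IsDedekindDomain NumberField Fermat.Agent.S55.NIT.SI Fermat.Agent.S55.Exist

variable {p : ℕ} {K : Type*} [Field K] [NumberField K]

/-! ### EXIST-A-1 (file OrdBasic.lean): elementary facts on `ord`, `PDiv`, `divT` -/

theorem pdiv_iff (v : Pl K) (x : Kˣ) :
    PDiv p K v x ↔ (p : ℤ) ∣ ord K v (Additive.ofMul x) := sorry

theorem exists_ord_eq_one (v : Pl K) : ∃ π : Kˣ, ord K v (Additive.ofMul π) = 1 := sorry

theorem mem_Uv_iff_ord (v : Pl K) (x : Kˣ) : x ∈ Uv K v ↔ ord K v (Additive.ofMul x) = 0 := sorry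

theorem exists_unit_mul_pow (v : Pl K) (a : Kˣ) (h : PDiv p K v a) :
    ∃ u c : Kˣ, u ∈ Uv K v ∧ a = u * c ^ p := sorry

theorem exists_unit_mul_zpow (v : Pl K) (π : Kˣ) (hπ : ord K v (Additive.ofMul π) = 1) (b : Kˣ) :
    ∃ u : Kˣ, u ∈ Uv K v ∧ b = u * π ^ (ord K v (Additive.ofMul b)) := sorry

theorem ker_divT (T : Finset (Pl K)) : (divT K T).ker = (KS K T).toAddSubgroup := sorry

theorem mem_selS_iff (T : Finset (Pl K)) (x : Additive Kˣ) :
    x ∈ Abs.selS p (divT K T) ↔ Additive.toMul x ∈ VS p K T := sorry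

theorem mem_pMul_iff (x : Additive Kˣ) :
    x ∈ Abs.pMul p (Additive Kˣ) ↔ ∃ z : Kˣ, z ^ p = Additive.toMul x := sorry

theorem mem_relQ_iff (T : Finset (Pl K)) (E : Dv K T) :
    E ∈ Abs.relQ p (divT K T) ↔
      ∃ y : Kˣ, ∀ v : {v : Pl K // v ∉ T}, (p : ℤ) ∣ E v - ord K v.1 (Additive.ofMul y) := sorry

/-! ### EXIST-A-2 (file FiniteCoker.lean): finiteness of `Cl_T`
Proof: `NIT/FI/ExistsS.lean` (`exists_classGen`: a finite `S ⊇ T` such that every prime outside `S`
has a generator up to `S`) and `NIT/FI/PrimePow.lean` (`exists_generator_pow`): the cokernel is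
generated by the finitely many classes of `v ∈ S \ T`, each of finite order. -/

theorem index_range_divT_ne_zero (T : Finset (Pl K)) : (divT K T).range.index ≠ 0 := sorry

/-! ### EXIST-A-3 (file UnitIndex.lean): `[K_T : K_T ∩ Kˣᵖ] = p^(|T| + r₂)` -/

theorem relIndex_pMul_ker_divT (hp : p.Prime) (hU : SUnitIndex p K) (T : Finset (Pl K)) :
    (Abs.pMul p (Additive Kˣ)).relIndex (divT K T).ker =
      p ^ (T.card + InfinitePlace.nrComplexPlaces K) := sorry

/-! ### EXIST-A-4 (file LocalIndex.lean): `∏_{w ∈ T} [Kˣ : pow w] = p^(2(|T| + r₂))`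
(`hA` is node SI-A `card_tgt_pow`; `finrank = 2 r₂` is `NIT/SI/TotallyComplex.lean`). -/

theorem prod_index_pow (hp : p.Prime) (hp2 : p ≠ 2) {ζ : K} (hζ : IsPrimitiveRoot ζ p)
    (D : LocData p K) (T : Finset (Pl K))
    (hA : Nat.card (Tgt K D.pow T) = p ^ (2 * T.card + Module.finrank ℚ K)) :
    ∏ w : T, ((D.pow w.1).toAddSubgroup).index =
      p ^ (2 * (T.card + InfinitePlace.nrComplexPlaces K)) := sorry

/-! ### EXIST-A-5 (file SymbBasic.lean): formal properties of the symbols -/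

theorem h_one_left {D : LocData p K} (H : SymbData p K D) (v : Pl K) (b : Kˣ) :
    H.h v 1 b = 0 := sorry

theorem h_one_right {D : LocData p K} (H : SymbData p K D) (v : Pl K) (a : Kˣ) :
    H.h v a 1 = 0 := sorry

theorem h_zpow_right {D : LocData p K} (H : SymbData p K D) (v : Pl K) (a b : Kˣ) (n : ℤ) :
    H.h v a (b ^ n) = n • H.h v a b := sorry

theorem h_pow_p_left {D : LocData p K} (H : SymbData p K D) (v : Pl K) (c b : Kˣ) :
    H.h v (c ^ p) b = 0 := sorry

/-- the symbol as a biadditive map on `Additive Kˣ` -/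
theorem exists_hAdd {D : LocData p K} (H : SymbData p K D) (v : Pl K) :
    ∃ f : Additive Kˣ →+ Additive Kˣ →+ ZMod p,
      ∀ a b : Kˣ, f (Additive.ofMul a) (Additive.ofMul b) = H.h v a b := sorry

/-- away from `p`, for `a` of valuation divisible by `p`, the symbol is "unramified in `a`". -/
theorem h_eq_ord_smul {D : LocData p K} (H : SymbData p K D) (v : Pl K) (hv : ¬ Over p K v)
    (a : Kˣ) (ha : PDiv p K v a) (π : Kˣ) (hπ : ord K v (Additive.ofMul π) = 1) (b : Kˣ) :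
    H.h v a b = ord K v (Additive.ofMul b) • H.h v a π := sorry

/-! ### EXIST-A-6 (file Recip.lean): the product formula in the form needed by `abs_main` -/

theorem recip_form {D : LocData p K} (H : SymbData p K D) (T : Finset (Pl K))
    (hpT : ∀ v : Pl K, Over p K v → v ∈ T) (π : Pl K → Kˣ)
    (hπ : ∀ v, ord K v (Additive.ofMul (π v)) = 1) (a : Kˣ) (ha : a ∈ VS p K T) (b : Kˣ) :
    ∑ w : T, H.h w.1 a b +
      (divT K T (Additive.ofMul b)).sum (fun v n => n • H.h v.1 a (π v.1)) = 0 := sorry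

/-! ### EXIST-A-7 (file SepPow.lean): an element which is a local `p`-th power everywhere is a
`p`-th power.  `hsep` is a special case (`a = 1`) of node SI-C4 `exists_place_sep`. -/

theorem exists_pow_eq_of_forall_mem_pow (D : LocData p K)
    (hsep : ∀ u : Kˣ, (∀ z : Kˣ, z ^ p ≠ u) → ∃ w : Pl K, ¬ Over p K w ∧ u ∈ Uv K w ∧
      ¬ ∃ y : Kˣ, w.valuation K ((u : K) - (y : K) ^ p) < 1)
    (a : Kˣ) (ha : ∀ v : Pl K, a ∈ D.pow v) : ∃ z : Kˣ, z ^ p = a := sorry

/-! ### EXIST-A-8 (file Core.lean): the core theorem (assembly: `Abs.abs_main` with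
`X = Additive Kˣ`, `ι = {v // v ∉ T}`, `τ = T`, `d = divT K T`, `P w = (D.pow w).toAddSubgroup`,
`g v a = H.h v a (π v)`, `e = |T| + r₂`) -/

theorem core (hp : p.Prime) (hp2 : p ≠ 2) {ζ : K} (hζ : IsPrimitiveRoot ζ p)
    (D : LocData p K) (H : SymbData p K D) (hU : SUnitIndex p K) (T : Finset (Pl K))
    (hpT : ∀ v : Pl K, Over p K v → v ∈ T)
    (hA : Nat.card (Tgt K D.pow T) = p ^ (2 * T.card + Module.finrank ℚ K))
    (hsep : ∀ u : Kˣ, (∀ z : Kˣ, z ^ p ≠ u) → ∃ w : Pl K, ¬ Over p K w ∧ u ∈ Uv K w ∧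
      ¬ ∃ y : Kˣ, w.valuation K ((u : K) - (y : K) ^ p) < 1)
    (E : Dv K T)
    (hE : ∀ a ∈ VT p K D T, ∀ v : {v : Pl K // v ∉ T}, a ∈ D.pow v.1 ∨ (p : ℤ) ∣ E v) :
    ∃ y : Kˣ, ∀ v : {v : Pl K // v ∉ T}, (p : ℤ) ∣ E v - ord K v.1 (Additive.ofMul y) := sorry

/-! ### EXIST-A-9 (file Residue.lean): if `a` becomes a `p`-th power in `L` then at every prime `w`
of `L` over `v ∤ p` either `a` is a local `p`-th power at `v` or `p` divides the residue degree.
Proof: `a = u c^p`, `u` a unit at `v`, `u = β^p` in `L`; residue fields `k_v ⊆ k_w` of degree `f`;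
`N(β̄)^p = ū^f`; if `p ∤ f` then `ū` is a `p`-th power in `k_v`; `D.tame`. -/

theorem mem_pow_or_dvd_finrank (hp : p.Prime) (D : LocData p K)
    {L : Type*} [Field L] [NumberField L] [Algebra K L] (w : Pl L) (v : Pl K)
    [w.asIdeal.LiesOver v.asIdeal] (hv : ¬ Over p K v) (a : Kˣ) (ha : PDiv p K v a)
    (α : L) (hα : α ^ p = algebraMap K L (a : K)) :
    a ∈ D.pow v ∨ p ∣ Module.finrank (𝓞 K ⧸ v.asIdeal) (𝓞 L ⧸ w.asIdeal) := sorry

/-! ### EXIST-A-10 (file FiniteVS.lean): `V^T / Kˣᵖ` is finite (from `Abs.relIndex_selS`, A-2, A-3) -/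

theorem relIndex_pow_VS_ne_zero (hp : p.Prime) (hU : SUnitIndex p K) (T : Finset (Pl K)) :
    ((powMonoidHom p : Kˣ →* Kˣ).range).relIndex (VS p K T) ≠ 0 := sorry

end Fermat.Agent.S55.Exist.WIP
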