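/-
S55 / EXIST : SKELETON of "Layer A2": place-wise symbols `SymbData` from semi-local symbols `QSymb`
(pure arithmetic: weak approximation).  WIP file (contains `sorry`): never import it from a landed file.
Each node `EXIST-Q-x` is a task; file `Fermat/Agent/S55/Exist/<Name>.lean`, namespace
`Fermat.Agent.S55.Exist`, EXACTLY these statements.
-/
import Fermat.Agent.S55.Exist.QDefs

set_option autoImplicit false

namespace Fermat.Agent.S55.Exist.WIP

open IsDedekindDomain NumberField Fermat.Agent.S55.NIT.SI Fermat.Agent.S55.Exist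

variable {p : ℕ} {K : Type*} [Field K] [NumberField K]

/-! ### EXIST-Q-1 (file PrimesOver.lean) -/

theorem exists_over (v : Pl K) : ∃ q : Nat.Primes, Over (q : ℕ) K v := sorry

theorem over_unique (v : Pl K) (q q' : Nat.Primes) (h : Over (q : ℕ) K v)
    (h' : Over (q' : ℕ) K v) : q = q' := sorry

theorem finite_over (q : Nat.Primes) : {v : Pl K | Over (q : ℕ) K v}.Finite := sorry

theorem exists_place_over (q : Nat.Primes) : ∃ v : Pl K, Over (q : ℕ) K v := sorry

/-! ### EXIST-Q-2 (file QBasic.lean) -/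

theorem qh_one_right {D : LocData p K} (Q : QSymb p K D) (q : Nat.Primes) (a : Kˣ) :
    Q.h q a 1 = 0 := sorry

theorem qh_div_right {D : LocData p K} (Q : QSymb p K D) (q : Nat.Primes) (a b b' : Kˣ) :
    Q.h q a (b / b') = Q.h q a b - Q.h q a b' := sorry

theorem qh_div_left {D : LocData p K} (Q : QSymb p K D) (q : Nat.Primes) (a a' b : Kˣ) :
    Q.h q (a / a') b = Q.h q a b - Q.h q a' b := sorry

theorem qh_prod_right {D : LocData p K} (Q : QSymb p K D) (q : Nat.Primes) (a : Kˣ) {ι : Type*}
    (s : Finset ι) (b : ι → Kˣ) : Q.h q a (∏ i ∈ s, b i) = ∑ i ∈ s, Q.h q a (b i) := sorry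

/-- orthogonality: at every `v ∣ q` one of the two arguments is a local `p`-th power -/
theorem qh_eq_zero_of_pow {D : LocData p K} (Q : QSymb p K D) (q : Nat.Primes) (a b : Kˣ)
    (h : ∀ v : Pl K, Over (q : ℕ) K v → a ∈ D.pow v ∨ b ∈ D.pow v) : Q.h q a b = 0 := sorry

theorem exists_localizer {D : LocData p K} (hWA : WeakApprox p K D) (q : Nat.Primes) (v : Pl K)
    (b : Kˣ) : ∃ c : Kˣ, c / b ∈ D.pow v ∧
      ∀ v' : Pl K, Over (q : ℕ) K v' → v' ≠ v → c ∈ D.pow v' := sorry

/-! ### EXIST-Q-3 (file PlaceSymb.lean): the place-wise symbols.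
`h_v(a, b) := h_q(a, c)`, `q` the prime below `v`, `c` a localizer of `b` at `v`. -/

theorem exists_symbData {D : LocData p K} (hWA : WeakApprox p K D) (Q : QSymb p K D) :
    Nonempty (SymbData p K D) := sorry

end Fermat.Agent.S55.Exist.WIP
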