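/-
S55 / block EXIST, "Layer C" : (T5) from `Exist.core`.   SKELETON (each `section` = one node = one
target file `Fermat/Agent/S55/Exist/T5/<Name>.lean`; the owner proves the statements VERBATIM there).
-/
import Fermat.Agent.S55.Exist.Core
import Fermat.Agent.S55.Exist.FiniteVS
import Fermat.Agent.S55.Units.Cl.Push
import Fermat.Agent.S55.Units.Cl.LS
import Fermat.Agent.S55.Units.Cl.Mu
import Fermat.Agent.S55.Units.Cl.Field
import Fermat.Agent.S55.Units.Roots
import Fermat.Agent.S55.Units.U6Exist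
import Fermat.Agent.S55.NIT.Inst.Instance
import Fermat.Agent.S55.NIT.SI.SUnitIndex
import Fermat.Agent.S55.NIT.SI.CardTgt
import Fermat.Agent.S55.NIT.SI.Sep
import Fermat.Agent.S55.Dict.WIP.LocPow

set_option autoImplicit false

namespace Fermat.Agent.S55.Exist

open scoped Pointwise
open IsDedekindDomain NumberField Fermat.Agent.S55.NIT.SI
open Fermat.Agent.S55.Dict (fixG)
open Fermat.Agent.S55.Units (InQS PlOff DivMod valG)
open Fermat.Agent.S55.Units.Cl

variable {S : Finset Nat.Primes} {p : ℕ} {K : Type} [Field K] [NumberField K] [Algebra K Qb]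

/-! ## EXIST-C-1 : file `Exist/T5/Roots.lean` -/
section Roots

/-- a `p`-th root of an element of `V^S` generates an extension unramified outside `S` -/
theorem inQS_of_pow_eq_of_mem_VS [Fact p.Prime] (hpS : ExtCitation.pPrime p ∈ S)
    (hK : IsSField S K) (a : Kˣ) (ha : a ∈ VS p K (SK S K)) (α : Qb)
    (hα : α ^ p = algebraMap K Qb (a : K)) : InQS S α := sorry

/-- ... hence it is fixed by an open subgroup. -/
theorem exists_level_fixing_root [Fact p.Prime] (hpS : ExtCitation.pPrime p ∈ S)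
    (hK : IsSField S K) (a : Kˣ) (ha : a ∈ VS p K (SK S K)) (α : Qb)
    (hα : α ^ p = algebraMap K Qb (a : K)) : ∃ N ∈ (lvlS S).carrier, ∀ g ∈ N, g α = α := sorry

end Roots

/-! ## EXIST-C-2 : file `Exist/T5/Level.lean` -/
section Level

/-- The level `U'` : it fixes `K(V^S ^ (1/p))`. -/
theorem exists_level [Fact p.Prime] (hp2 : p ≠ 2) (hpS : ExtCitation.pPrime p ∈ S)
    (hK : IsSField S K) {ζ : K} (hζ : IsPrimitiveRoot ζ p) :
    ∃ U' ∈ (lvlS S).carrier, U' ≤ fixG K ∧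
      ∀ a ∈ VS p K (SK S K), ∀ α : Qb, α ^ p = algebraMap K Qb (a : K) → ∀ g ∈ U', g α = α := sorry

end Level

/-! ## EXIST-C-3 : file `Exist/T5/Frob.lean` -/
section Frob

/-- If `a` is not a local `p`-th power at the place below `B`, the decomposition group of `B` in
`G_K` contains an element whose image in `G_K ⧸ U'` has order divisible by `p`. -/
theorem exists_dec_of_not_mem_locPow (hp : p.Prime) (hp2 : p ≠ 2) {ζ : K}
    (hζ : IsPrimitiveRoot ζ p) (B : PlOff S) (a : Kˣ)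
    (ha : a ∉ NIT.locPow K p (below S K B).1) (U' : Subgroup GQ)
    (hU' : ∀ α : Qb, α ^ p = algebraMap K Qb (a : K) → ∀ g ∈ U', g α = α) :
    ∃ d ∈ fixG K, d • B = B ∧ ∀ i : ℕ, d ^ i ∈ U' → p ∣ i := sorry

end Frob

/-! ## EXIST-C-4 : file `Exist/T5/PushDvd.lean` -/
section PushDvd

/-- `Units.Cl.dvd_divEquiv_push` for an arbitrary subgroup `U' ≤ G_K` normalised by `G_K`. -/
theorem dvd_divEquiv_push_quotProj (hK : IsSField S K) {U' : Subgroup GQ} (hle : U' ≤ fixG K)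
    [Finite (GQ ⧸ U')] (hn : ∀ g ∈ fixG K, ∀ u ∈ U', g * u * g⁻¹ ∈ U')
    (𝔄 : inv0 GQ (IndMod (GQ ⧸ U') (DivMod S))) (B : PlOff S) (p : ℕ)
    (d : GQ) (hdK : d ∈ fixG K) (hdB : d • B = B) (hd : ∀ i : ℕ, d ^ i ∈ U' → p ∣ i) :
    (p : ℤ) ∣ divEquiv hK (inv0.map (IndMod.push (DivMod S) (quotProj hle)) 𝔄) (below S K B) :=
  sorry

end PushDvd

/-! ## EXIST-C-5 : file `Exist/T5/DivStep.lean` -/
section DivStep

/-- a divisor all of whose coefficients are divisible by `p` is `p` times a divisor -/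
theorem exists_nsmul_eq_of_forall_dvd (T : Finset (Pl K)) (E : Dv K T)
    (h : ∀ v, (p : ℤ) ∣ E v) (hp : p ≠ 0) : ∃ E' : Dv K T, E = p • E' := sorry

/-- The norm of every divisor of level `U'` is principal modulo `p`. -/
theorem exists_principal_mod_p [Fact p.Prime] (hp2 : p ≠ 2) (hpS : ExtCitation.pPrime p ∈ S)
    (hK : IsSField S K) {ζ : K} (hζ : IsPrimitiveRoot ζ p)
    (H : SymbData p K (NIT.Inst.locData Fact.out hp2 hζ))
    {U' : Subgroup GQ} (hle : U' ≤ fixG K) [Finite (GQ ⧸ U')] [U'.Normal]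
    (hU' : ∀ a ∈ VS p K (SK S K), ∀ α : Qb, α ^ p = algebraMap K Qb (a : K) → ∀ g ∈ U', g α = α)
    (𝔄 : IndMod (GQ ⧸ U') (DivMod S)) (h𝔄 : 𝔄 ∈ inv0 GQ (IndMod (GQ ⧸ U') (DivMod S))) :
    ∃ y ∈ inv0 GQ (IndMod (GQ ⧸ fixG K) (LSx S)),
      ∃ 𝔟 ∈ inv0 GQ (IndMod (GQ ⧸ fixG K) (DivMod S)),
        IndMod.push (DivMod S) (quotProj hle) 𝔄 =
          IndMod.mapCoeff (GQ ⧸ fixG K) (valG S) y + p • 𝔟 := sorry

end DivStep

/-! ## EXIST-C-6 : file `Exist/T5/Main.lean` -/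
section Main

/-- **(T5)**, from the local symbols (Layer B), LOC and BR. -/
theorem T5_of_symbData [Fact p.Prime] (hp2 : p ≠ 2) (hpS : ExtCitation.pPrime p ∈ S)
    {L : ∀ q, LocPkg p q} (B : BrPkg p L)
    (H : ∀ (K : Type) [Field K] [NumberField K] [Algebra K Qb] (ζ : K) (hζ : IsPrimitiveRoot ζ p),
      Nonempty (SymbData p K (NIT.Inst.locData Fact.out hp2 hζ))) :
    ∀ U ∈ (lvlS S).carrier, ActsTrivially U (Mu p) →
    ∃ U' ∈ (lvlS S).carrier, ∃ h : U' ≤ U, ∃ _ : Finite (GQ ⧸ U'),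
      ∀ x ∈ Sha S (IndMod (GQ ⧸ U') (Mu p)) 2,
        Hsm.map (IndMod.push (Mu p) (quotProj h)) 2 x = 0 := sorry

end Main

end Fermat.Agent.S55.Exist
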